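/-
MAZUR (S15) / TOP: the SEAMS.  Prefix `mzt_`.

Vocabulary: `J = JZero p = Pic⁰ ℚ̄(X₀(p))` (prelude), `G_ℚ`-action = `arithmeticGalois`,
`T ℓ = heckeOperatorBar p ℓ` (`ℓ ≠ p`), reduction = `reductionModL A p`.

Seams (each a `Prop`; the owning cell delivers a closed term):
* `mzt_C_stmt C`   [MZ-C']  the cuspidal class `c = cl((0) - (∞))`;
* `mzt_AB_stmt C`  [MZ-A]+[MZ-B]  the modular point of `(E, ⟨Q⟩)` and the cusp dictionary;
* `mzt_PM1_stmt`   [MZ-B]   `Q ∈ E⁰` at a multiplicative `ℓ ≠ p` forces `ℓ ≡ ±1 mod p`;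
* `mzt_RH_stmt`    [MZ-RH]  the kernel of reduction is Hecke stable (`mzt_RHw_stmt`: weak form,
                            up to a power of the residue characteristic; it suffices);
* `mzt_F_stmt C`   (F*)     finiteness of the Eisenstein part of the Mordell–Weil group, in
                            idempotent-free form.
The assembly `mzt_S15` (file `Asm.lean`) derives the frozen statement S15 from them.
-/
import Mathlib
import Fermat.Prelude.Def_EllipticCurve_ZeroComponentAt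
import Fermat.Prelude.Def_FLTPrelim_Ramification
import Fermat.Prelude.Def_ModularCurve_ReductionModL
import Fermat.Prelude.Def_ModularCurve_HeckeModule
import Fermat.Agent.JT3.ES.RiemannFbar

set_option autoImplicit false

noncomputable section

open WeierstrassCurve WeierstrassCurve.Affine
open ModularCurve AlgebraicCurve

namespace Fermat.Agent.MZ

local notation "GQ" => (AlgebraicClosure ℚ ≃ₐ[ℚ] AlgebraicClosure ℚ)

/-- a pair of places ("the cusps `0` and `∞`") of `ℚ̄(X₀(p))` -/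
structure mzt_Cusps (p : ℕ) where
  zero : Place (AlgebraicClosure ℚ) (modularFunctionFieldBar p)
  inf : Place (AlgebraicClosure ℚ) (modularFunctionFieldBar p)

/-- `(v) - (w)` as a divisor of degree zero -/
def mzt_diff (p : ℕ) [NeZero p] (v w : Place (AlgebraicClosure ℚ) (modularFunctionFieldBar p)) :
    Divisor.degZero (K := AlgebraicClosure ℚ) (F := modularFunctionFieldBar p) :=
  ⟨Finsupp.single v 1 - Finsupp.single w 1, by
    rw [Divisor.mem_degZero, map_sub, Divisor.degree_single, Divisor.degree_single,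
      (Fermat.Agent.JT3.est_riemann_fbar p).deg_one v,
      (Fermat.Agent.JT3.est_riemann_fbar p).deg_one w, sub_self]⟩

/-- the class of `(v) - (w)` in `J₀(p)` -/
def mzt_cls (p : ℕ) [NeZero p] (v w : Place (AlgebraicClosure ℚ) (modularFunctionFieldBar p)) :
    JZero p := Pic0.mk (mzt_diff p v w)

/-- the cuspidal class `c = cl((0) - (∞))` -/
def mzt_c (p : ℕ) [NeZero p] (C : mzt_Cusps p) : JZero p := mzt_cls p C.zero C.inf

/-- the Hecke operators `T_ℓ`, `ℓ ≠ p`, `ℓ ∉ S` (`S` a finite set of excluded primes) -/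
def mzt_T (p : ℕ) [NeZero p] (S : Finset ℕ) :
    {ℓ : Nat.Primes // (ℓ : ℕ) ≠ p ∧ (ℓ : ℕ) ∉ S} → Module.End ℤ (JZero p) :=
  fun ℓ => heckeOperatorBar p ℓ.1

/-- **[MZ-C']** the cuspidal class: the cusps are rational, `c` is Eisenstein (for the `T_ℓ` with
`ℓ ∤ p (p - 1)`: this is what the congruence relation + torsion injectivity give, and the consumer
(F*) may exclude any finite set of primes), killed by `p - 1`, and nonzero when the genus is
positive.  TOP itself uses only the first two and the last two clauses. -/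
def mzt_C_stmt (C : ∀ p : ℕ, mzt_Cusps p) : Prop :=
  ∀ (p : ℕ) [NeZero p], p.Prime → p ∉ ({2, 3, 5, 7, 13} : Finset ℕ) →
    (∀ σ : GQ, arithmeticGalois (modularFunctionFieldFull p) σ • (C p).zero = (C p).zero) ∧
    (∀ σ : GQ, arithmeticGalois (modularFunctionFieldFull p) σ • (C p).inf = (C p).inf) ∧
    (∀ ℓ : Nat.Primes, (ℓ : ℕ) ≠ p → ¬ (ℓ : ℕ) ∣ p - 1 →
      heckeOperatorBar p ℓ (mzt_c p (C p)) = ((1 : ℤ) + ((ℓ : ℕ) : ℤ)) • mzt_c p (C p)) ∧
    (p - 1) • mzt_c p (C p) = 0 ∧ mzt_c p (C p) ≠ 0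

/-- **[MZ-A] + [MZ-B]** the modular point of `(E, ⟨Q⟩)` with the cusp dictionary.  The place `x` is
chosen AFTER the hypothesis `Q ∈ E⁰` at `A ∣ ℓ` (its Galois-fixedness is a corollary of the
dictionary at `ℓ`): it reduces to the cusp `∞` at `A`, and to the cusp `0` at every multiplicative
place `B ∣ s ≠ p` where `Q ∉ E⁰`. -/
def mzt_AB_stmt (C : ∀ p : ℕ, mzt_Cusps p) : Prop :=
  ∀ (p : ℕ) [NeZero p], p.Prime → p ∉ ({2, 3, 5, 7, 13} : Finset ℕ) →
    ∀ (W : WeierstrassCurve ℤ), W.Δ ≠ 0 →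
    ∀ (Q : ((W.map (Int.castRingHom ℚ))⁄(AlgebraicClosure ℚ)).Point),
      (∀ σ : GQ, σ • Q = Q) → addOrderOf Q = p →
    ∀ (ℓ : ℕ), ℓ.Prime → ℓ ≠ p → (ℓ : ℤ) ∣ W.Δ → ¬ (ℓ : ℤ) ∣ W.c₄ →
    ∀ (A : ValuationSubring (AlgebraicClosure ℚ)), A.LiesOverPrime ℓ →
      W.InZeroComponentAt A Q →
    ∃ x : Place (AlgebraicClosure ℚ) (modularFunctionFieldBar p),
      (∀ σ : GQ, arithmeticGalois (modularFunctionFieldFull p) σ • x = x) ∧
      (∀ h : ReductionInputsModL A p,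
        placeReductionModL h x = placeReductionModL h (C p).inf) ∧
      ∀ (s : ℕ), s.Prime → s ≠ p → (s : ℤ) ∣ W.Δ → ¬ (s : ℤ) ∣ W.c₄ →
        ∀ (B : ValuationSubring (AlgebraicClosure ℚ)), B.LiesOverPrime s →
          ¬ W.InZeroComponentAt B Q →
          ∀ h : ReductionInputsModL B p,
            placeReductionModL h x = placeReductionModL h (C p).zero

/-- **(PM1)** a rational point of order `p` in the identity component at a multiplicative prime
`ℓ ≠ p` forces `ℓ ≡ ±1 mod p`. -/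
def mzt_PM1_stmt : Prop :=
  ∀ (p : ℕ), p.Prime →
    ∀ (W : WeierstrassCurve ℤ), W.Δ ≠ 0 →
    ∀ (Q : ((W.map (Int.castRingHom ℚ))⁄(AlgebraicClosure ℚ)).Point),
      (∀ σ : GQ, σ • Q = Q) → addOrderOf Q = p →
    ∀ (ℓ : ℕ), ℓ.Prime → ℓ ≠ p → (ℓ : ℤ) ∣ W.Δ → ¬ (ℓ : ℤ) ∣ W.c₄ →
      ∀ (A : ValuationSubring (AlgebraicClosure ℚ)), A.LiesOverPrime ℓ →
        W.InZeroComponentAt A Q → (p ∣ ℓ - 1 ∨ p ∣ ℓ + 1)

/-- **[MZ-RH]** the kernel of the reduction map of `J₀(N)` at a good prime `ℓ` is stable under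
every Hecke operator `T_ℓ'`, `ℓ' ∤ N`, `ℓ' ≠ ℓ`. -/
def mzt_RH_stmt : Prop :=
  ∀ (N : ℕ) [NeZero N] (ℓ : ℕ), ℓ.Prime → ¬ ℓ ∣ N →
    ∀ (ℓ' : Nat.Primes), ¬ (ℓ' : ℕ) ∣ N → (ℓ' : ℕ) ≠ ℓ →
    ∀ (A : ValuationSubring (AlgebraicClosure ℚ)), A.LiesOverPrime ℓ →
    ∀ x : JZero N, reductionModL A N x = 0 → reductionModL A N (heckeOperatorBar N ℓ' x) = 0

/-- **[MZ-RH], weak form** (sufficient for the assembly): up to a power of the residue
characteristic. -/
def mzt_RHw_stmt : Prop :=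
  ∀ (N : ℕ) [NeZero N] (ℓ : ℕ), ℓ.Prime → ¬ ℓ ∣ N →
    ∀ (ℓ' : Nat.Primes), ¬ (ℓ' : ℕ) ∣ N → (ℓ' : ℕ) ≠ ℓ →
    ∀ (A : ValuationSubring (AlgebraicClosure ℚ)), A.LiesOverPrime ℓ →
    ∀ x : JZero N, reductionModL A N x = 0 →
      ∃ a : ℕ, ℓ ^ a • reductionModL A N (heckeOperatorBar N ℓ' x) = 0

theorem mzt_RHw_of_RH (h : mzt_RH_stmt) : mzt_RHw_stmt := by
  intro N _ ℓ hℓ hℓN ℓ' hℓ'N hne A hA x hx
  exact ⟨0, by rw [pow_zero, one_smul]; exact h N ℓ hℓ hℓN ℓ' hℓ'N hne A hA x hx⟩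

/-- **(F*)** finiteness of the Eisenstein part of `J₀(p)(ℚ)`, idempotent-free: for a prime
`r ∣ ord c` and every finite set `S` of excluded primes there is `t` in the ring generated by the
`T_ℓ` (`ℓ ≠ p`, `ℓ ∉ S`), acting on `c` as an integer `≡ 1 mod r`, such that `t` maps `J₀(p)(ℚ)`
into the `r ^ j`-torsion. -/
def mzt_F_stmt (C : ∀ p : ℕ, mzt_Cusps p) : Prop :=
  ∀ (p : ℕ) [NeZero p], p.Prime → p ∉ ({2, 3, 5, 7, 13} : Finset ℕ) →
    ∀ (r : ℕ), r.Prime → r ∣ addOrderOf (mzt_c p (C p)) → ∀ (S : Finset ℕ),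
    ∃ (t : Module.End ℤ (JZero p)) (j : ℕ) (b : ℤ),
      t ∈ Algebra.adjoin ℤ (Set.range (mzt_T p S)) ∧
      t (mzt_c p (C p)) = ((1 : ℤ) + (r : ℤ) * b) • mzt_c p (C p) ∧
      ∀ P : JZero p, (∀ σ : GQ, σ • P = P) → r ^ j • t P = 0

end Fermat.Agent.MZ
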