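/-
MAZUR (S15) / TOP, abstract algebra.  Prefix `mzt_`.

`mzt_abs` : the purely formal part of Mazur's argument (III.5, Step 3), idempotent-free.

Data: an abelian group `J` with additive operators `T i` ("Hecke"), two homomorphisms
`reds`, `redl` ("reduction at `s` and at `l`") whose kernels are stable under the `T i`, an
"Eisenstein" element `c` (`T i c = a i • c`), and an operator `t` in the ring generated by the `T i`
with `t c = (1 + r b) c` ("`t ≡ 1` modulo the Eisenstein prime") and `r ^ j • t P = 0`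
("the Eisenstein part of the Mordell–Weil group is finite").  If `reds P = 0`, `redl (P + c) = 0`
and the reductions are injective on the relevant torsion, then `r ∤ ord c`.
-/
import Mathlib

set_option autoImplicit false

namespace Fermat.Agent.MZ

/-- an element of the ring generated by the `T i` preserves every kernel the `T i` preserve -/
theorem mzt_adjoin_ker {J J' : Type*} [AddCommGroup J] [AddCommGroup J'] {ι : Type*}
    (T : ι → Module.End ℤ J) (red : J →+ J')
    (hK : ∀ i x, red x = 0 → red (T i x) = 0)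
    (t : Module.End ℤ J) (ht : t ∈ Algebra.adjoin ℤ (Set.range T)) :
    ∀ x, red x = 0 → red (t x) = 0 := by
  induction ht using Algebra.adjoin_induction with
  | mem u hu =>
    obtain ⟨i, rfl⟩ := hu
    exact hK i
  | algebraMap n =>
    intro x hx
    rw [Module.algebraMap_end_apply, map_zsmul, hx, smul_zero]
  | add u v _ _ hu hv =>
    intro x hx
    rw [LinearMap.add_apply, map_add, hu x hx, hv x hx, add_zero]
  | mul u v _ _ hu hv =>
    intro x hx
    rw [Module.End.mul_apply]
    exact hu _ (hv x hx)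

/-- on a simultaneous eigenvector, an element of the ring generated by the `T i` acts by an
integer -/
theorem mzt_adjoin_eigen {J : Type*} [AddCommGroup J] {ι : Type*}
    (T : ι → Module.End ℤ J) (a : ι → ℤ) (c : J) (hc : ∀ i, T i c = a i • c)
    (t : Module.End ℤ J) (ht : t ∈ Algebra.adjoin ℤ (Set.range T)) :
    ∃ n : ℤ, t c = n • c := by
  induction ht using Algebra.adjoin_induction with
  | mem u hu =>
    obtain ⟨i, rfl⟩ := hu
    exact ⟨a i, hc i⟩
  | algebraMap n => exact ⟨n, by rw [Module.algebraMap_end_apply]⟩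
  | add u v _ _ hu hv =>
    obtain ⟨m, hm⟩ := hu
    obtain ⟨n, hn⟩ := hv
    exact ⟨m + n, by rw [LinearMap.add_apply, hm, hn, add_smul]⟩
  | mul u v _ _ hu hv =>
    obtain ⟨m, hm⟩ := hu
    obtain ⟨n, hn⟩ := hv
    exact ⟨n * m, by rw [Module.End.mul_apply, hn, map_zsmul, hm, mul_smul]⟩

/-- **Mazur's argument, formal part.** -/
theorem mzt_abs {J Js Jl : Type*} [AddCommGroup J] [AddCommGroup Js] [AddCommGroup Jl]
    {ι : Type*} (T : ι → Module.End ℤ J)
    (reds : J →+ Js) (redl : J →+ Jl)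
    (hKs : ∀ i x, reds x = 0 → reds (T i x) = 0)
    (hKl : ∀ i x, redl x = 0 → redl (T i x) = 0)
    (r : ℕ) (hr : r.Prime)
    (hinj_s : ∀ z : J, (∃ n : ℕ, r ^ n • z = 0) → reds z = 0 → z = 0)
    (l : ℕ)
    (hinj_l : ∀ (m : ℕ), ¬ l ∣ m → ∀ z : J, m • z = 0 → redl z = 0 → z = 0)
    (c : J) (m : ℕ) (hm : m • c = 0) (hml : ¬ l ∣ m) (hrc : r ∣ addOrderOf c)
    (t : Module.End ℤ J) (ht : t ∈ Algebra.adjoin ℤ (Set.range T)) (j : ℕ) (b : ℤ)
    (htc : t c = (1 + (r : ℤ) * b) • c)
    (P : J) (htP : r ^ j • t P = 0)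
    (hPs : reds P = 0) (hPl : redl (P + c) = 0) : False := by
  -- `t P = 0`
  have h1 : t P = 0 := hinj_s (t P) ⟨j, htP⟩ (mzt_adjoin_ker T reds hKs t ht P hPs)
  -- `redl (t c) = 0`
  have h2 : redl (t c) = 0 := by
    have := mzt_adjoin_ker T redl hKl t ht (P + c) hPl
    rwa [map_add, h1, zero_add] at this
  -- `t c = 0`
  have h3 : t c = 0 := by
    refine hinj_l m hml (t c) ?_ h2
    rw [← map_nsmul, hm, map_zero]
  -- `ord c ∣ 1 + r b`
  rw [htc] at h3
  have h4 : (addOrderOf c : ℤ) ∣ 1 + (r : ℤ) * b := (addOrderOf_dvd_iff_zsmul_eq_zero).mpr h3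
  have h5 : (r : ℤ) ∣ 1 + (r : ℤ) * b := (Int.natCast_dvd_natCast.mpr hrc).trans h4
  have h6 : (r : ℤ) ∣ 1 := (Int.dvd_add_left (Dvd.intro _ rfl)).mp h5
  have h7 : r ∣ 1 := by exact_mod_cast h6
  exact hr.one_lt.ne' (Nat.dvd_one.mp h7)

end Fermat.Agent.MZ
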