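/-
MAZUR (S15) / TOP: the ASSEMBLY.  Prefix `mzt_`.

`mzt_S15` : the frozen statement S15 from the five seams of `Seams.lean`, S18 (on main) and node E
(`rpw_nodeE`, on main), through the formal argument `mzt_abs`.
-/
import Mathlib
import Fermat.Agent.MZ.Top.Abs
import Fermat.Agent.MZ.Top.Seams
import Fermat.Agent.S18
import Fermat.Agent.JT3.PlaceMap.WireNodeE

set_option autoImplicit false
set_option maxHeartbeats 800000

noncomputable section

open WeierstrassCurve WeierstrassCurve.Affine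
open ModularCurve AlgebraicCurve

namespace Fermat.Agent.MZ

local notation "GQ" => (AlgebraicClosure ℚ ≃ₐ[ℚ] AlgebraicClosure ℚ)
local notation "Qbar" => AlgebraicClosure ℚ

/-- above every prime there is a valuation subring of `ℚ̄` -/
theorem mzt_exists_place (ℓ : ℕ) (hℓ : ℓ.Prime) :
    ∃ A : ValuationSubring Qbar, A.LiesOverPrime ℓ := by
  let Z : Subring Qbar := (algebraMap ℤ Qbar).range
  let l : Z := ⟨(ℓ : Qbar), ⟨(ℓ : ℤ), by simp⟩⟩
  have hne : Ideal.span ({l} : Set Z) ≠ ⊤ := by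
    intro h
    rw [Ideal.span_singleton_eq_top] at h
    obtain ⟨⟨b, hb⟩, hbl⟩ := h.exists_right_inv
    obtain ⟨n, rfl⟩ := hb
    have h1 : ((ℓ : ℤ) * n : ℤ) = 1 := by
      have h2 : (algebraMap ℤ Qbar) ((ℓ : ℤ) * n) = (algebraMap ℤ Qbar) 1 := by
        rw [map_mul, map_one]
        have := congrArg Subtype.val hbl
        simpa [l] using this
      exact (algebraMap ℤ Qbar).injective_int h2
    have h3 : (ℓ : ℤ) ∣ 1 := ⟨n, h1.symm⟩
    have h4 : ℓ ∣ 1 := by exact_mod_cast h3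
    exact hℓ.one_lt.ne' (Nat.dvd_one.1 h4)
  obtain ⟨B, -, hB⟩ := Ideal.image_subset_nonunits_valuationSubring (Ideal.span ({l} : Set Z)) hne
  exact ⟨B, hB ⟨l, Ideal.subset_span rfl, rfl⟩⟩

section Classes

variable (p : ℕ) [NeZero p]

/-- `cl((u) - (v)) + cl((v) - (w)) = cl((u) - (w))` -/
theorem mzt_cls_add (u v w : Place Qbar (modularFunctionFieldBar p)) :
    mzt_cls p u v + mzt_cls p v w = mzt_cls p u w := by
  unfold mzt_cls
  rw [Pic0.mk, Pic0.mk, Pic0.mk, ← QuotientAddGroup.mk_add]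
  congr 1
  apply Subtype.ext
  show (Finsupp.single u 1 - Finsupp.single v 1) + (Finsupp.single v 1 - Finsupp.single w 1)
    = Finsupp.single u (1 : ℤ) - Finsupp.single w 1
  abel

/-- a class `cl((u) - (v))` of two `G_ℚ`-fixed places is `G_ℚ`-fixed -/
theorem mzt_cls_fixed (u v : Place Qbar (modularFunctionFieldBar p))
    (hu : ∀ σ : GQ, arithmeticGalois (modularFunctionFieldFull p) σ • u = u)
    (hv : ∀ σ : GQ, arithmeticGalois (modularFunctionFieldFull p) σ • v = v) (σ : GQ) :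
    σ • mzt_cls p u v = mzt_cls p u v := by
  rw [galois_smul_pic0_def]
  unfold mzt_cls
  rw [SemilinearAut.pic0_smul_mk]
  congr 1
  apply Subtype.ext
  rw [SemilinearAut.coe_degZeroSMulHom]
  show arithmeticGalois (modularFunctionFieldFull p) σ •
      (Finsupp.single u (1 : ℤ) - Finsupp.single v 1) = Finsupp.single u (1 : ℤ) - Finsupp.single v 1
  rw [smul_sub, SemilinearAut.smul_single, SemilinearAut.smul_single, hu σ, hv σ]

/-- the reduction of `cl((u) - (v))` vanishes when `u` and `v` have the same reduction -/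
theorem mzt_red_cls_eq_zero {A : ValuationSubring Qbar} (h : ReductionInputsModL A p)
    (u v : Place Qbar (modularFunctionFieldBar p))
    (huv : placeReductionModL h u = placeReductionModL h v) :
    reductionModL A p (mzt_cls p u v) = 0 := by
  unfold mzt_cls
  rw [reductionModL_mk h]
  have h0 : reductionDegZeroAlong (placeReductionModL h)
      (isPlaceReductionModL_placeReductionModL h).1 (mzt_diff p u v) = 0 := by
    apply Subtype.ext
    rw [coe_reductionDegZeroAlong]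
    show Finsupp.mapDomain (placeReductionModL h)
      (Finsupp.single u (1 : ℤ) - Finsupp.single v 1) = 0
    rw [Finsupp.mapDomain_sub, Finsupp.mapDomain_single, Finsupp.mapDomain_single, huv, sub_self]
  rw [h0]
  rfl

end Classes

section PrimaryKer

variable {J J' : Type*} [AddCommGroup J] [AddCommGroup J']

/-- the preimage of the `ℓ`-primary part under an additive map -/
def mzt_primaryKer (red : J →+ J') (ℓ : ℕ) : AddSubgroup J where
  carrier := {x | ∃ a : ℕ, ℓ ^ a • red x = 0}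
  zero_mem' := ⟨0, by rw [map_zero, smul_zero]⟩
  add_mem' := by
    rintro x y ⟨a, ha⟩ ⟨b, hb⟩
    refine ⟨a + b, ?_⟩
    rw [map_add, smul_add, pow_add, mul_comm, mul_smul, ha, mul_comm, mul_smul, hb, smul_zero,
      smul_zero, add_zero]
  neg_mem' := by
    rintro x ⟨a, ha⟩
    exact ⟨a, by rw [map_neg, smul_neg, ha, neg_zero]⟩

theorem mzt_mem_primaryKer {red : J →+ J'} {ℓ : ℕ} {x : J} :
    x ∈ mzt_primaryKer red ℓ ↔ ∃ a : ℕ, ℓ ^ a • red x = 0 := Iff.rfl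

theorem mzt_primaryKer_of_ker {red : J →+ J'} {ℓ : ℕ} {x : J} (hx : red x = 0) :
    x ∈ mzt_primaryKer red ℓ := ⟨0, by rw [hx, smul_zero]⟩

/-- weak kernel stability gives stability of the primary kernel -/
theorem mzt_primaryKer_stable (red : J →+ J') (ℓ : ℕ) (T : Module.End ℤ J)
    (hT : ∀ x, red x = 0 → ∃ a : ℕ, ℓ ^ a • red (T x) = 0) (x : J)
    (hx : x ∈ mzt_primaryKer red ℓ) : T x ∈ mzt_primaryKer red ℓ := by
  obtain ⟨a, ha⟩ := hx
  have h1 : red (ℓ ^ a • x) = 0 := by rw [map_nsmul, ha]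
  obtain ⟨b, hb⟩ := hT _ h1
  refine ⟨b + a, ?_⟩
  rw [map_nsmul, map_nsmul] at hb
  rw [pow_add, mul_smul]
  exact hb

/-- prime-to-`ℓ` torsion in the primary kernel lies in the kernel -/
theorem mzt_primaryKer_tors (red : J →+ J') {ℓ : ℕ} (hℓ : ℓ.Prime) {m : ℕ} (hm : ¬ ℓ ∣ m)
    {z : J} (hmz : m • z = 0) (hz : z ∈ mzt_primaryKer red ℓ) : red z = 0 := by
  obtain ⟨a, ha⟩ := hz
  have hcop : Nat.Coprime (ℓ ^ a) m := Nat.Coprime.pow_left a ((Nat.Prime.coprime_iff_not_dvd hℓ).mpr hm)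
  have h1 : m • red z = 0 := by rw [← map_nsmul, hmz, map_zero]
  have h2 : addOrderOf (red z) ∣ ℓ ^ a := addOrderOf_dvd_of_nsmul_eq_zero ha
  have h3 : addOrderOf (red z) ∣ m := addOrderOf_dvd_of_nsmul_eq_zero h1
  have h4 : addOrderOf (red z) ∣ 1 := by
    have := Nat.dvd_gcd h2 h3
    rwa [hcop.gcd_eq_one] at this
  exact AddMonoid.addOrderOf_eq_one_iff.mp (Nat.dvd_one.mp h4)

end PrimaryKer

/-- elementary arithmetic: `p ∣ ℓ ∓ 1`, `ℓ` prime, `p ≥ 11` prime  ⟹  `ℓ ∤ p - 1`. -/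
theorem mzt_not_dvd_pred {p ℓ : ℕ} (hp : p.Prime) (hp11 : 11 ≤ p) (hℓ : ℓ.Prime)
    (h : p ∣ ℓ - 1 ∨ p ∣ ℓ + 1) : ¬ ℓ ∣ p - 1 := by
  intro hd
  have hp1 : 0 < p - 1 := by omega
  have hle : ℓ ≤ p - 1 := Nat.le_of_dvd hp1 hd
  have hℓ2 := hℓ.two_le
  rcases h with h | h
  · have h1 : 0 < ℓ - 1 := by omega
    have := Nat.le_of_dvd h1 h
    omega
  · have h1 : 0 < ℓ + 1 := by omega
    have h2 := Nat.le_of_dvd h1 h
    -- `ℓ + 1 = p`, so `ℓ = p - 1` is even and `≥ 10`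
    have h3 : ℓ = p - 1 := by omega
    have hodd : ¬ 2 ∣ p := by
      intro h2p
      have := (Nat.prime_dvd_prime_iff_eq Nat.prime_two hp).mp h2p
      omega
    have heven : 2 ∣ ℓ := by omega
    have := (Nat.prime_dvd_prime_iff_eq Nat.prime_two hℓ).mp heven
    omega

/-- **S15 from the seams.** -/
theorem mzt_S15 (C : ∀ p : ℕ, mzt_Cusps p)
    (hC : mzt_C_stmt C) (hAB : mzt_AB_stmt C) (hPM : mzt_PM1_stmt) (hRH : mzt_RHw_stmt)
    (hF : mzt_F_stmt C)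
    {p : ℕ} (hp : p.Prime) (hp' : p ∉ ({2, 3, 5, 7, 13} : Finset ℕ))
    (W : WeierstrassCurve ℤ) (hΔ : W.Δ ≠ 0)
    (Q : ((W.map (Int.castRingHom ℚ))⁄(AlgebraicClosure ℚ)).Point)
    (hQfix : ∀ σ : AlgebraicClosure ℚ ≃ₐ[ℚ] AlgebraicClosure ℚ, σ • Q = Q)
    (hQord : addOrderOf Q = p)
    (h2Δ : (2 : ℤ) ∣ W.Δ) (h2c₄ : ¬ (2 : ℤ) ∣ W.c₄)
    (h2 : ∀ A : ValuationSubring (AlgebraicClosure ℚ), A.LiesOverPrime 2 →
      ¬ W.InZeroComponentAt A Q)
    (h3Δ : (3 : ℤ) ∣ W.Δ) (h3c₄ : ¬ (3 : ℤ) ∣ W.c₄)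
    (h3 : ∀ A : ValuationSubring (AlgebraicClosure ℚ), A.LiesOverPrime 3 →
      ¬ W.InZeroComponentAt A Q)
    {ℓ : ℕ} (hℓ : ℓ.Prime) (hℓp : ℓ ≠ p) (hℓΔ : (ℓ : ℤ) ∣ W.Δ) (hℓc₄ : ¬ (ℓ : ℤ) ∣ W.c₄)
    (A : ValuationSubring (AlgebraicClosure ℚ)) (hA : A.LiesOverPrime ℓ) :
    ¬ W.InZeroComponentAt A Q := by
  intro hin
  have : NeZero p := ⟨hp.ne_zero⟩
  -- `p ≥ 11`
  have hp11 : 11 ≤ p := by
    have h2 := hp.two_le
    simp only [Finset.mem_insert, Finset.mem_singleton, not_or] at hp'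
    obtain ⟨n2, n3, n5, n7, n13⟩ := hp'
    by_contra hlt
    push Not at hlt
    interval_cases p <;> first | omega | (exact absurd hp (by decide))
  -- the cuspidal class
  obtain ⟨hz, hi, hEis, hpc, hc0⟩ := hC p hp hp'
  set c := mzt_c p (C p) with hcdef
  -- the modular point
  obtain ⟨x, hxfix, hxℓ, hx⟩ := hAB p hp hp' W hΔ Q hQfix hQord ℓ hℓ hℓp hℓΔ hℓc₄ A hA hin
  -- the prime `r`
  have hord1 : addOrderOf c ≠ 1 := fun h => hc0 (AddMonoid.addOrderOf_eq_one_iff.mp h)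
  have hordp : addOrderOf c ∣ p - 1 := addOrderOf_dvd_of_nsmul_eq_zero hpc
  set r := (addOrderOf c).minFac with hrdef
  have hr : r.Prime := Nat.minFac_prime hord1
  have hrc : r ∣ addOrderOf c := Nat.minFac_dvd _
  have hrp : r ∣ p - 1 := hrc.trans hordp
  -- `ℓ ∤ p - 1`
  have hℓp1 : ¬ ℓ ∣ p - 1 :=
    mzt_not_dvd_pred hp hp11 hℓ (hPM p hp W hΔ Q hQfix hQord ℓ hℓ hℓp hℓΔ hℓc₄ A hA hin)
  have hrℓ : r ≠ ℓ := fun h => hℓp1 (h ▸ hrp)
  -- the auxiliary prime `s ∈ {2, 3}`, `s ≠ r`, with `Q ∉ E⁰` at `s`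
  obtain ⟨s, hs, hsr, hsp, hsΔ, hsc₄, hsQ⟩ : ∃ s : ℕ, s.Prime ∧ s ≠ r ∧ s ≠ p ∧ (s : ℤ) ∣ W.Δ ∧
      ¬ (s : ℤ) ∣ W.c₄ ∧ ∀ B : ValuationSubring (AlgebraicClosure ℚ), B.LiesOverPrime s →
        ¬ W.InZeroComponentAt B Q := by
    by_cases hr2 : r = 2
    · exact ⟨3, Nat.prime_three, by omega, by omega, by exact_mod_cast h3Δ,
        by exact_mod_cast h3c₄, h3⟩
    · exact ⟨2, Nat.prime_two, fun h => hr2 h.symm, by omega, by exact_mod_cast h2Δ,
        by exact_mod_cast h2c₄, h2⟩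
  obtain ⟨B, hB⟩ := mzt_exists_place s hs
  have hsNp : ¬ s ∣ p := fun h => hsp ((Nat.prime_dvd_prime_iff_eq hs hp).mp h)
  have hℓNp : ¬ ℓ ∣ p := fun h => hℓp ((Nat.prime_dvd_prime_iff_eq hℓ hp).mp h)
  have hEs : ReductionInputsModL B p := Fermat.Agent.JT3.rpw_nodeE p s hs hsNp B hB
  have hEℓ : ReductionInputsModL A p := Fermat.Agent.JT3.rpw_nodeE p ℓ hℓ hℓNp A hA
  -- the point `P = cl((x) - (0))`
  set P := mzt_cls p x (C p).zero with hPdef
  have hPfix : ∀ σ : GQ, σ • P = P := mzt_cls_fixed p x (C p).zero hxfix hz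
  have hPs : reductionModL B p P = 0 :=
    mzt_red_cls_eq_zero p hEs x (C p).zero (hx s hs hsp hsΔ hsc₄ B hB (hsQ B hB) hEs)
  have hPℓ : reductionModL A p (P + c) = 0 := by
    rw [hPdef, hcdef, mzt_c, mzt_cls_add]
    exact mzt_red_cls_eq_zero p hEℓ x (C p).inf (hxℓ hEℓ)
  have : Fact s.Prime := ⟨hs⟩
  have : Fact ℓ.Prime := ⟨hℓ⟩
  -- the operator `t`, avoiding `T_s` and `T_ℓ`
  obtain ⟨t, j, b, ht, htc, htM⟩ := hF p hp hp' r hr hrc {s, ℓ}
  set Ks := mzt_primaryKer (reductionModL B p) s with hKs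
  set Kl := mzt_primaryKer (reductionModL A p) ℓ with hKl
  refine mzt_abs (mzt_T p {s, ℓ}) (QuotientAddGroup.mk' Ks) (QuotientAddGroup.mk' Kl) ?_ ?_ r hr ?_
    ℓ ?_ c (p - 1) hpc hℓp1 hrc t ht j b htc P (htM P hPfix) ?_ ?_
  · intro i y hy
    rw [QuotientAddGroup.mk'_apply, QuotientAddGroup.eq_zero_iff] at hy ⊢
    have hi1 : ¬ ((i.1 : Nat.Primes) : ℕ) ∣ p :=
      fun h => i.2.1 ((Nat.prime_dvd_prime_iff_eq i.1.2 hp).mp h)
    have hi2 : ((i.1 : Nat.Primes) : ℕ) ≠ s := fun h => i.2.2 (by rw [h]; simp)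
    exact mzt_primaryKer_stable _ s _ (fun z hz => hRH p s hs hsNp i.1 hi1 hi2 B hB z hz) y hy
  · intro i y hy
    rw [QuotientAddGroup.mk'_apply, QuotientAddGroup.eq_zero_iff] at hy ⊢
    have hi1 : ¬ ((i.1 : Nat.Primes) : ℕ) ∣ p :=
      fun h => i.2.1 ((Nat.prime_dvd_prime_iff_eq i.1.2 hp).mp h)
    have hi2 : ((i.1 : Nat.Primes) : ℕ) ≠ ℓ := fun h => i.2.2 (by rw [h]; simp)
    exact mzt_primaryKer_stable _ ℓ _ (fun z hz => hRH p ℓ hℓ hℓNp i.1 hi1 hi2 A hA z hz) y hy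
  · rintro z ⟨n, hn⟩ hz0
    rw [QuotientAddGroup.mk'_apply, QuotientAddGroup.eq_zero_iff] at hz0
    have hsr' : ¬ s ∣ r ^ n :=
      fun h => hsr ((Nat.prime_dvd_prime_iff_eq hs hr).mp (hs.dvd_of_dvd_pow h))
    exact Fermat.Agent.S18.result p hsNp B hB hEs (r ^ n) hsr' z hn
      (mzt_primaryKer_tors _ hs hsr' hn hz0)
  · intro m hm z hmz hz0
    rw [QuotientAddGroup.mk'_apply, QuotientAddGroup.eq_zero_iff] at hz0
    exact Fermat.Agent.S18.result p hℓNp A hA hEℓ m hm z hmz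
      (mzt_primaryKer_tors _ hℓ hm hmz hz0)
  · rw [QuotientAddGroup.mk'_apply, QuotientAddGroup.eq_zero_iff]
    exact mzt_primaryKer_of_ker hPs
  · rw [QuotientAddGroup.mk'_apply, QuotientAddGroup.eq_zero_iff]
    exact mzt_primaryKer_of_ker hPℓ

end Fermat.Agent.MZ
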